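import Fermat.Agent.Lib.Ribet.H404.ResMod

/-!
# Row S58 (helper94): the eigencharacter of a normalized eigenform on the Hecke algebra away
from `S`, and the control of its range

* `chigOf hh S : heckeAlgebra M 2 S →+* ℂ`, `chigOf_T`;
* `chigOf_range_le` : if `S` contains the primes of `M` and `a_ℓ ∈ R` for all `ℓ ∉ S`, `ℓ ∤ M`,
  then the range of `chigOf hh S` is contained in the subring `R`;
* `isIntegral_qCoeff_h94` : `a_ℓ` is an algebraic integer (`ℓ ∤ M`).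
-/

set_option autoImplicit false

namespace Fermat.Agent.S58.H94

open CuspForm CongruenceSubgroup ModularFormClass

variable {M : ℕ} [NeZero M]

/-- The eigencharacter on the Hecke algebra away from `S`. -/
noncomputable def chigOf {h : CuspForm (Gamma0 M) 2} (hh : h.IsNormalizedEigenform) (S : Set ℕ) :
    heckeAlgebra M 2 S →+* ℂ :=
  (Fermat.Agent.Lib.Ribet.H404.eigenChar hh).comp
    (Subalgebra.inclusion (heckeAlgebra_mono (N := M) (k := 2) (Set.empty_subset S))).toRingHom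

theorem chigOf_T {h : CuspForm (Gamma0 M) 2} (hh : h.IsNormalizedEigenform) (S : Set ℕ)
    {ℓ : ℕ} (hℓ : ℓ.Prime) (hℓM : ¬ ℓ ∣ M) (hℓS : ℓ ∉ S) :
    chigOf hh S (heckeAlgebra.T hℓ hℓM hℓS) = qCoeff ⇑h ℓ := by
  have : (Subalgebra.inclusion (heckeAlgebra_mono (N := M) (k := 2) (Set.empty_subset S)))
      (heckeAlgebra.T hℓ hℓM hℓS) = heckeAlgebra.T hℓ hℓM (Set.notMem_empty _) :=
    Subtype.ext rfl
  show Fermat.Agent.Lib.Ribet.H404.eigenChar hh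
    ((Subalgebra.inclusion (heckeAlgebra_mono (N := M) (k := 2) (Set.empty_subset S)))
      (heckeAlgebra.T hℓ hℓM hℓS)) = _
  rw [this, Fermat.Agent.Lib.Ribet.H404.eigenChar_T]

theorem chigOf_mem {h : CuspForm (Gamma0 M) 2} (hh : h.IsNormalizedEigenform) (S : Set ℕ)
    (R : Subring ℂ)
    (hR : ∀ ℓ : ℕ, ℓ.Prime → ¬ ℓ ∣ M → ℓ ∉ S → qCoeff ⇑h ℓ ∈ R)
    (hS : ∀ q : ℕ, q.Prime → q ∣ M → q ∈ S) (t : heckeAlgebra M 2 S) :
    chigOf hh S t ∈ R := by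
  obtain ⟨t, ht⟩ := t
  induction ht using Algebra.adjoin_induction with
  | mem x hx =>
    rcases hx with ⟨ℓ, hℓ, hℓN, hℓS, rfl⟩ | ⟨q, hqN, hq, hqS, rfl⟩
    · have := chigOf_T hh S hℓ hℓN hℓS
      have e : (⟨heckeTLin 2 hℓ hℓN, Algebra.subset_adjoin
          (heckeTLin_mem_heckeGenerators hℓ hℓN hℓS)⟩ : heckeAlgebra M 2 S)
          = heckeAlgebra.T hℓ hℓN hℓS := rfl
      rw [e, this]
      exact hR ℓ hℓ hℓN hℓS
    · exact absurd (hS q hq hqN) hqS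
  | algebraMap r =>
    have e : (⟨algebraMap ℤ _ r, Subalgebra.algebraMap_mem _ r⟩ : heckeAlgebra M 2 S)
        = ((r : ℤ) : heckeAlgebra M 2 S) := by
      apply Subtype.ext
      simp
    rw [e, map_intCast]
    exact intCast_mem R r
  | add x y hx hy ihx ihy =>
    have e : (⟨x + y, Subalgebra.add_mem _ hx hy⟩ : heckeAlgebra M 2 S)
        = (⟨x, hx⟩ : heckeAlgebra M 2 S) + ⟨y, hy⟩ := rfl
    rw [e, map_add]
    exact R.add_mem ihx ihy
  | mul x y hx hy ihx ihy =>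
    have e : (⟨x * y, Subalgebra.mul_mem _ hx hy⟩ : heckeAlgebra M 2 S)
        = (⟨x, hx⟩ : heckeAlgebra M 2 S) * ⟨y, hy⟩ := rfl
    rw [e, map_mul]
    exact R.mul_mem ihx ihy

theorem chigOf_range_le {h : CuspForm (Gamma0 M) 2} (hh : h.IsNormalizedEigenform) (S : Set ℕ)
    (R : Subring ℂ)
    (hR : ∀ ℓ : ℕ, ℓ.Prime → ¬ ℓ ∣ M → ℓ ∉ S → qCoeff ⇑h ℓ ∈ R)
    (hS : ∀ q : ℕ, q.Prime → q ∣ M → q ∈ S) : (chigOf hh S).range ≤ R := by
  rintro x ⟨t, rfl⟩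
  exact chigOf_mem hh S R hR hS t

/-- The eigenvalue `a_ℓ` of a normalized eigenform is an algebraic integer (`ℓ ∤ M`). -/
theorem isIntegral_qCoeff_h94 {h : CuspForm (Gamma0 M) 2} (hh : h.IsNormalizedEigenform)
    {ℓ : ℕ} (hℓ : ℓ.Prime) (hℓM : ¬ ℓ ∣ M) : IsIntegral ℤ (qCoeff ⇑h ℓ) := by
  have := Fermat.Agent.Lib.Ribet.H404.ringHom_mem_integralClosure
    (Fermat.Agent.Lib.Ribet.H404.eigenChar hh) (heckeAlgebra.T hℓ hℓM (Set.notMem_empty _))
  rw [Fermat.Agent.Lib.Ribet.H404.eigenChar_T] at this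
  exact this

end Fermat.Agent.S58.H94
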