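import Fermat.Agent.S30.H990.Glue
import Fermat.Agent.S30.H990.Cheb
import Fermat.Agent.Lib.Cheb.FrobeniusDivision

/-!
# Row S58 (helper94): comparison of two adic Galois representations by a common quadratic
relation

If two continuous Galois actions over a complete DVR `𝒪` satisfy, at every Frobenius element
outside a finite set `S ∋ p`, the *same* quadratic relation `X² - t_ℓ X + ℓ`, then every element
`g` of `G_ℚ` satisfies on both a common relation `X² - a X + χ(g)` (`χ` the `p`-adic cyclotomic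
character).  This is the Chebotarev argument of the S30 glue (helper990), applied to the direct
sum.  No determinant and no irreducibility are needed to compare the two actions afterwards.
-/

set_option autoImplicit false

namespace Fermat.Agent.S58.H94

open Fermat.Agent.S30.H990 Fermat.Agent.S55.H414

/-- The weak Chebotarev statement, unconditional. -/
theorem chebWeak_h94 : ChebWeak :=
  chebWeak_of_frobeniusDivision Fermat.Agent.Lib.Cheb.frobeniusDivision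

section Gen

variable {𝒪 : Type} [CommRing 𝒪] [IsDomain 𝒪] [IsDiscreteValuationRing 𝒪]
  [IsAdicComplete (IsLocalRing.maximalIdeal 𝒪) 𝒪] [Finite (IsLocalRing.ResidueField 𝒪)]
  {M : Type} [AddCommGroup M] [Module 𝒪 M]

omit [IsAdicComplete (IsLocalRing.maximalIdeal 𝒪) 𝒪] [Finite (IsLocalRing.ResidueField 𝒪)] in
/-- The quadratic relation modulo `𝔪 ^ n` for every element of `G_ℚ` (generic form of
`S30.H990.exists_rel_mod`). -/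
theorem exists_rel_mod_gen (p : ℕ) [Fact p.Prime] (S : Finset ℕ) (hpS : p ∈ S)
    (ρ : GQ →* Module.End 𝒪 M) (cont : GaloisActionIsAdicContinuous 𝒪 ρ)
    (t : ℕ → 𝒪)
    (frob : ∀ ℓ : ℕ, ℓ.Prime → ℓ ∉ S →
      ∀ A : ValuationSubring (AlgebraicClosure ℚ), A.LiesOverPrime ℓ →
        ∀ σ : GQ, A.IsFrobeniusAt σ ℓ →
          ρ σ * ρ σ - t ℓ • ρ σ + (ℓ : 𝒪) • 1 = 0)
    (d : GQ →* 𝒪ˣ)
    (hdfrob : ∀ ℓ : ℕ, ℓ.Prime → ℓ ≠ p → ∀ A : ValuationSubring (AlgebraicClosure ℚ),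
      A.LiesOverPrime ℓ → ∀ σ : GQ, A.IsFrobeniusAt σ ℓ → ((d σ : 𝒪ˣ) : 𝒪) = (ℓ : 𝒪))
    (hdcont : ∀ (n : ℕ) (σ : GQ), (∀ x ∈ cycloLevel (p ^ n), σ x = x) →
      ((d σ : 𝒪ˣ) : 𝒪) - 1 ∈ IsLocalRing.maximalIdeal 𝒪 ^ n)
    (g : GQ) (n : ℕ) :
    ∃ a : 𝒪, ∀ v : M, ρ g (ρ g v) - a • ρ g v + ((d g : 𝒪ˣ) : 𝒪) • v
      ∈ (IsLocalRing.maximalIdeal 𝒪 ^ n) • (⊤ : Submodule 𝒪 M) := by
  obtain ⟨L₁, hL₁fin, hL₁⟩ := cont n
  have : FiniteDimensional ℚ L₁ := hL₁fin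
  have hLfin : FiniteDimensional ℚ ↥(L₁ ⊔ cycloLevel (p ^ n)) :=
    IntermediateField.finiteDimensional_sup L₁ (cycloLevel (p ^ n))
  obtain ⟨ℓ, hℓ, hℓS, A, hA, τ, hτ, j, hj⟩ :=
    chebWeak_h94 (L₁ ⊔ cycloLevel (p ^ n)) hLfin g S
  have hℓp : ℓ ≠ p := fun h => hℓS (h ▸ hpS)
  set σ : GQ := (τ ^ j)⁻¹ * g with hσ
  have hg : g = τ ^ j * σ := by rw [hσ, mul_inv_cancel_left]
  have hσfix : ∀ x ∈ L₁ ⊔ cycloLevel (p ^ n), σ x = x := by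
    intro x hx
    have h1 : σ x = (τ ^ j)⁻¹ (g x) := rfl
    rw [h1, hj x hx]
    exact (τ ^ j).symm_apply_apply x
  have hs : ∀ v : M, ρ σ v - v
      ∈ (IsLocalRing.maximalIdeal 𝒪 ^ n) • (⊤ : Submodule 𝒪 M) :=
    hL₁ σ (fun x hx => hσfix x ((le_sup_left : L₁ ≤ L₁ ⊔ cycloLevel (p ^ n)) hx))
  have hu : ((d σ : 𝒪ˣ) : 𝒪) - 1 ∈ IsLocalRing.maximalIdeal 𝒪 ^ n :=
    hdcont n σ (fun x hx =>
      hσfix x ((le_sup_right : cycloLevel (p ^ n) ≤ L₁ ⊔ cycloLevel (p ^ n)) hx))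
  have hfrob := frob ℓ hℓ hℓS A hA τ hτ
  obtain ⟨t', ht⟩ := lucas (ρ τ) (t ℓ) (ℓ : 𝒪) hfrob j
  refine ⟨t', fun v => ?_⟩
  have key := rel_mod_of_mul (IsLocalRing.maximalIdeal 𝒪 ^ n) (ρ τ ^ j) (ρ σ) t'
    ((ℓ : 𝒪) ^ j) ((d σ : 𝒪ˣ) : 𝒪) ht hs hu v
  have hρg : ρ g = ρ τ ^ j * ρ σ := by rw [hg, map_mul, map_pow]
  have hdg : ((d g : 𝒪ˣ) : 𝒪) = (ℓ : 𝒪) ^ j * ((d σ : 𝒪ˣ) : 𝒪) := by
    rw [hg, map_mul, map_pow, Units.val_mul, Units.val_pow_eq_pow_val,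
      hdfrob ℓ hℓ hℓp A hA τ hτ]
  rw [hρg, hdg]
  exact key

/-- The exact quadratic relation for every element of `G_ℚ`. -/
theorem exists_rel_gen [Module.Finite 𝒪 M] (p : ℕ) [Fact p.Prime] (S : Finset ℕ) (hpS : p ∈ S)
    (ρ : GQ →* Module.End 𝒪 M) (cont : GaloisActionIsAdicContinuous 𝒪 ρ)
    (t : ℕ → 𝒪)
    (frob : ∀ ℓ : ℕ, ℓ.Prime → ℓ ∉ S →
      ∀ A : ValuationSubring (AlgebraicClosure ℚ), A.LiesOverPrime ℓ →
        ∀ σ : GQ, A.IsFrobeniusAt σ ℓ →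
          ρ σ * ρ σ - t ℓ • ρ σ + (ℓ : 𝒪) • 1 = 0)
    (d : GQ →* 𝒪ˣ)
    (hdfrob : ∀ ℓ : ℕ, ℓ.Prime → ℓ ≠ p → ∀ A : ValuationSubring (AlgebraicClosure ℚ),
      A.LiesOverPrime ℓ → ∀ σ : GQ, A.IsFrobeniusAt σ ℓ → ((d σ : 𝒪ˣ) : 𝒪) = (ℓ : 𝒪))
    (hdcont : ∀ (n : ℕ) (σ : GQ), (∀ x ∈ cycloLevel (p ^ n), σ x = x) →
      ((d σ : 𝒪ˣ) : 𝒪) - 1 ∈ IsLocalRing.maximalIdeal 𝒪 ^ n)
    (g : GQ) : ∃ a, Fermat.Agent.S30.H990.Rel ρ d g a :=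
  exists_rel_of_mod ρ d g
    (fun n => exists_rel_mod_gen p S hpS ρ cont t frob d hdfrob hdcont g n)

end Gen

section Pair

variable {𝒪 : Type} [CommRing 𝒪] [IsDomain 𝒪] [IsDiscreteValuationRing 𝒪]
  [IsAdicComplete (IsLocalRing.maximalIdeal 𝒪) 𝒪] [Finite (IsLocalRing.ResidueField 𝒪)]

/-- The diagonal action on the product of two adic representations. -/
noncomputable def prodRho (ρ₁ ρ₂ : GaloisRepAdic 𝒪) : GQ →* Module.End 𝒪 (ρ₁.V × ρ₂.V) where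
  toFun σ := LinearMap.prodMap (ρ₁.ρ σ) (ρ₂.ρ σ)
  map_one' := by
    rw [map_one, map_one]
    exact LinearMap.prodMap_one
  map_mul' σ τ := by
    rw [map_mul, map_mul]
    exact (LinearMap.prodMap_mul _ _ _ _).symm

omit [IsAdicComplete (IsLocalRing.maximalIdeal 𝒪) 𝒪] [Finite (IsLocalRing.ResidueField 𝒪)] in
theorem prodRho_apply (ρ₁ ρ₂ : GaloisRepAdic 𝒪) (σ : GQ) (v : ρ₁.V × ρ₂.V) :
    prodRho ρ₁ ρ₂ σ v = (ρ₁.ρ σ v.1, ρ₂.ρ σ v.2) := rfl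

omit [IsDomain 𝒪] [IsDiscreteValuationRing 𝒪] [IsAdicComplete (IsLocalRing.maximalIdeal 𝒪) 𝒪]
  [Finite (IsLocalRing.ResidueField 𝒪)] in
theorem prod_mem_smul_top (I : Ideal 𝒪) {V₁ V₂ : Type} [AddCommGroup V₁] [Module 𝒪 V₁]
    [AddCommGroup V₂] [Module 𝒪 V₂] {x : V₁} {y : V₂}
    (hx : x ∈ I • (⊤ : Submodule 𝒪 V₁)) (hy : y ∈ I • (⊤ : Submodule 𝒪 V₂)) :
    ((x, y) : V₁ × V₂) ∈ I • (⊤ : Submodule 𝒪 (V₁ × V₂)) := by
  have h1 : ((x, 0) : V₁ × V₂) ∈ I • (⊤ : Submodule 𝒪 (V₁ × V₂)) := by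
    refine Submodule.smul_induction_on (p := fun x => ((x, 0) : V₁ × V₂) ∈
      I • (⊤ : Submodule 𝒪 (V₁ × V₂))) hx ?_ ?_
    · intro r hr n _
      have : ((r • n, 0) : V₁ × V₂) = r • ((n, 0) : V₁ × V₂) := by
        rw [Prod.smul_mk, smul_zero]
      rw [this]
      exact Submodule.smul_mem_smul hr Submodule.mem_top
    · intro a b ha hb
      have : ((a + b, 0) : V₁ × V₂) = (a, 0) + (b, 0) := by
        rw [Prod.mk_add_mk, add_zero]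
      rw [this]
      exact Submodule.add_mem _ ha hb
  have h2 : ((0, y) : V₁ × V₂) ∈ I • (⊤ : Submodule 𝒪 (V₁ × V₂)) := by
    refine Submodule.smul_induction_on (p := fun y => ((0, y) : V₁ × V₂) ∈
      I • (⊤ : Submodule 𝒪 (V₁ × V₂))) hy ?_ ?_
    · intro r hr n _
      have : ((0, r • n) : V₁ × V₂) = r • ((0, n) : V₁ × V₂) := by
        rw [Prod.smul_mk, smul_zero]
      rw [this]
      exact Submodule.smul_mem_smul hr Submodule.mem_top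
    · intro a b ha hb
      have : ((0, a + b) : V₁ × V₂) = (0, a) + (0, b) := by
        rw [Prod.mk_add_mk, add_zero]
      rw [this]
      exact Submodule.add_mem _ ha hb
  have : ((x, y) : V₁ × V₂) = (x, 0) + (0, y) := by
    rw [Prod.mk_add_mk, add_zero, zero_add]
  rw [this]
  exact Submodule.add_mem _ h1 h2

omit [IsAdicComplete (IsLocalRing.maximalIdeal 𝒪) 𝒪] [Finite (IsLocalRing.ResidueField 𝒪)] in
theorem prodRho_cont (ρ₁ ρ₂ : GaloisRepAdic 𝒪) :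
    GaloisActionIsAdicContinuous 𝒪 (prodRho ρ₁ ρ₂) := by
  intro n
  obtain ⟨L₁, hL₁fin, hL₁⟩ := ρ₁.isAdicContinuous n
  obtain ⟨L₂, hL₂fin, hL₂⟩ := ρ₂.isAdicContinuous n
  have : FiniteDimensional ℚ L₁ := hL₁fin
  have : FiniteDimensional ℚ L₂ := hL₂fin
  refine ⟨L₁ ⊔ L₂, IntermediateField.finiteDimensional_sup L₁ L₂, fun σ hσ v => ?_⟩
  have h1 := hL₁ σ (fun x hx => hσ x ((le_sup_left : L₁ ≤ L₁ ⊔ L₂) hx)) v.1
  have h2 := hL₂ σ (fun x hx => hσ x ((le_sup_right : L₂ ≤ L₁ ⊔ L₂) hx)) v.2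
  have : prodRho ρ₁ ρ₂ σ v - v = (ρ₁.ρ σ v.1 - v.1, ρ₂.ρ σ v.2 - v.2) := by
    rw [prodRho_apply]
    rfl
  rw [this]
  exact prod_mem_smul_top _ h1 h2

/-- **Common quadratic relation.**  Two adic representations with the same quadratic relation
at the Frobenius elements outside `S` satisfy a common relation `X² - a X + d(g)` at every
`g ∈ G_ℚ`. -/
theorem exists_common_rel (p : ℕ) [Fact p.Prime] (S : Finset ℕ) (hpS : p ∈ S)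
    (ρ₁ ρ₂ : GaloisRepAdic 𝒪) (t : ℕ → 𝒪)
    (frob₁ : ∀ ℓ : ℕ, ℓ.Prime → ℓ ∉ S →
      ∀ A : ValuationSubring (AlgebraicClosure ℚ), A.LiesOverPrime ℓ →
        ∀ σ : GQ, A.IsFrobeniusAt σ ℓ →
          ρ₁.ρ σ * ρ₁.ρ σ - t ℓ • ρ₁.ρ σ + (ℓ : 𝒪) • 1 = 0)
    (frob₂ : ∀ ℓ : ℕ, ℓ.Prime → ℓ ∉ S →
      ∀ A : ValuationSubring (AlgebraicClosure ℚ), A.LiesOverPrime ℓ →
        ∀ σ : GQ, A.IsFrobeniusAt σ ℓ →
          ρ₂.ρ σ * ρ₂.ρ σ - t ℓ • ρ₂.ρ σ + (ℓ : 𝒪) • 1 = 0)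
    (d : GQ →* 𝒪ˣ)
    (hdfrob : ∀ ℓ : ℕ, ℓ.Prime → ℓ ≠ p → ∀ A : ValuationSubring (AlgebraicClosure ℚ),
      A.LiesOverPrime ℓ → ∀ σ : GQ, A.IsFrobeniusAt σ ℓ → ((d σ : 𝒪ˣ) : 𝒪) = (ℓ : 𝒪))
    (hdcont : ∀ (n : ℕ) (σ : GQ), (∀ x ∈ cycloLevel (p ^ n), σ x = x) →
      ((d σ : 𝒪ˣ) : 𝒪) - 1 ∈ IsLocalRing.maximalIdeal 𝒪 ^ n)
    (g : GQ) : ∃ a : 𝒪, Fermat.Agent.S30.H990.Rel ρ₁.ρ d g a ∧ Fermat.Agent.S30.H990.Rel ρ₂.ρ d g a := by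
  have frob : ∀ ℓ : ℕ, ℓ.Prime → ℓ ∉ S →
      ∀ A : ValuationSubring (AlgebraicClosure ℚ), A.LiesOverPrime ℓ →
        ∀ σ : GQ, A.IsFrobeniusAt σ ℓ →
          prodRho ρ₁ ρ₂ σ * prodRho ρ₁ ρ₂ σ - t ℓ • prodRho ρ₁ ρ₂ σ + (ℓ : 𝒪) • 1 = 0 := by
    intro ℓ hℓ hℓS A hA σ hσ
    have h1 := frob₁ ℓ hℓ hℓS A hA σ hσ
    have h2 := frob₂ ℓ hℓ hℓS A hA σ hσ
    apply LinearMap.ext
    rintro ⟨v, w⟩
    have e1 := congrArg (fun f : Module.End 𝒪 ρ₁.V => f v) h1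
    have e2 := congrArg (fun f : Module.End 𝒪 ρ₂.V => f w) h2
    simp only [LinearMap.add_apply, LinearMap.sub_apply, Module.End.mul_apply,
      LinearMap.smul_apply, Module.End.one_apply, LinearMap.zero_apply] at e1 e2
    simp only [LinearMap.add_apply, LinearMap.sub_apply, Module.End.mul_apply,
      LinearMap.smul_apply, Module.End.one_apply, LinearMap.zero_apply, prodRho_apply,
      Prod.smul_mk, Prod.mk_sub_mk, Prod.mk_add_mk, e1, e2]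
    rfl
  obtain ⟨a, ha⟩ := exists_rel_gen p S hpS (prodRho ρ₁ ρ₂) (prodRho_cont ρ₁ ρ₂) t frob d
    hdfrob hdcont g
  refine ⟨a, ?_, ?_⟩
  · unfold Fermat.Agent.S30.H990.Rel
    apply LinearMap.ext
    intro v
    have := rel_apply (prodRho ρ₁ ρ₂) d ha ((v, 0) : ρ₁.V × ρ₂.V)
    have e := congrArg Prod.fst this
    simpa [prodRho_apply] using e
  · unfold Fermat.Agent.S30.H990.Rel
    apply LinearMap.ext
    intro w
    have := rel_apply (prodRho ρ₁ ρ₂) d ha ((0, w) : ρ₁.V × ρ₂.V)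
    have e := congrArg Prod.snd this
    simpa [prodRho_apply] using e

end Pair

end Fermat.Agent.S58.H94
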