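import Fermat.Agent.S59.H240.UnipInput
import Fermat.Agent.S59.H899.Unram
import Fermat.Agent.Lib.Frob.Small.All
import Fermat.Agent.S59.H127.TateE

/-!
# Row S58 (helper94): the `lam`-adic Tate module of a semistable integral model, with the two
quadratic relations used by the comparison argument

For every prime `lam` (no irreducibility hypothesis) there is `T : GaloisRepAdic ℤ_[lam]` with
* `T(σ)² - a_ℓ(W) T(σ) + ℓ = 0` for every Frobenius element `σ` at a good prime `ℓ ≠ lam`;
* `T(σ)² - 2 T(σ) + 1 = 0` for every `σ` in an inertia group at a prime `q ≠ lam`.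
-/

set_option autoImplicit false

namespace Fermat.Agent.S58.H94

open WeierstrassCurve WeierstrassCurve.Affine
open scoped WeierstrassCurve.Affine

/-- The Tate module side of the comparison. -/
theorem exists_tate_h94 (W : WeierstrassCurve ℤ) (hΔ : W.Δ ≠ 0) (hss : W.IsSemistableModel)
    (lam : ℕ) [hlam : Fact lam.Prime] :
    ∃ T : GaloisRepAdic ℤ_[lam],
      (∀ ℓ : ℕ, ℓ.Prime → W.IsGoodPrimeFor ℓ → ℓ ≠ lam →
        ∀ A : ValuationSubring (AlgebraicClosure ℚ), A.LiesOverPrime ℓ →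
          ∀ σ : AlgebraicClosure ℚ ≃ₐ[ℚ] AlgebraicClosure ℚ, A.IsFrobeniusAt σ ℓ →
            T.ρ σ * T.ρ σ - (((W.apOfModel ℓ : ℤ) : ℤ_[lam])) • T.ρ σ
              + ((ℓ : ℤ_[lam])) • (1 : Module.End ℤ_[lam] T.V) = 0) ∧
      (∀ q : ℕ, q.Prime → q ≠ lam →
        ∀ P : ValuationSubring (AlgebraicClosure ℚ), P.LiesOverPrime q →
          ∀ σ ∈ P.inertiaSubgroupIn ℚ,
            T.ρ σ * T.ρ σ - (2 : ℤ_[lam]) • T.ρ σ + (1 : Module.End ℤ_[lam] T.V) = 0) := by
  classical
  have hE : ((Fermat.Agent.S59.H127.WQ W)⁄(AlgebraicClosure ℚ)).IsElliptic :=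
    Fermat.Agent.S59.H127.isElliptic_of_Δ_ne_zero W hΔ
  obtain ⟨cb⟩ := Fermat.Agent.S59.H127.nonempty_compatBasis_point
    ((Fermat.Agent.S59.H127.WQ W)⁄(AlgebraicClosure ℚ)) lam
  refine ⟨Fermat.Agent.S59.H127.tateGaloisRep (Fermat.Agent.S59.H127.WQ W) cb, ?_, ?_⟩
  · intro ℓ hℓ hgood hℓlam A hA σ hσ
    have h := Fermat.Agent.S59.H127.tateGaloisRep_quadratic (Fermat.Agent.S59.H127.WQ W) cb σ
      (W.apOfModel ℓ) (ℓ : ℤ) (fun n x hx =>
        Fermat.Agent.Lib.Frob.Small.frobRelationAll W ℓ hℓ hgood A σ hA hσ (lam ^ n)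
          (pow_pos hlam.out.pos n)
          (Fermat.Agent.S59.H899.not_dvd_prime_pow hℓ hlam.out hℓlam n) x hx)
    rw [Int.cast_natCast] at h
    exact h
  · intro q hq hqlam P hP σ hσ
    have h := Fermat.Agent.S59.H127.tateGaloisRep_quadratic (Fermat.Agent.S59.H127.WQ W) cb σ
      2 1 (fun n x hx => by
        by_cases hgood : W.IsGoodPrimeFor q
        · have hfix : ∀ y : Fermat.Agent.S59.H127.Pts W, lam ^ n • y = 0 → σ • y = y :=
            fun y hy => Fermat.Agent.S59.H899.inertia_smul_eq_self_of_good W hq hgood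
              (Fermat.Agent.S59.H899.not_dvd_prime_pow hq hlam.out hqlam n) P hP σ hσ y hy
          rw [hfix x hx, hfix x hx, one_zsmul]
          have e2 : (2 : ℤ) • x = x + x := by
            rw [show (2 : ℤ) = 1 + 1 from rfl, add_zsmul, one_zsmul]
          rw [e2]
          abel
        · exact Fermat.Agent.S59.H240.unipInput_of_semistable lam hlam.out W hΔ hss q hq hgood
            hqlam P hP σ hσ n x hx)
    rw [Int.cast_one, one_smul, Int.cast_ofNat] at h
    exact h

end Fermat.Agent.S58.H94
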