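import Fermat.Agent.S58.H94.Cmp
import Fermat.Agent.S58.H94.TateSide
import Fermat.Agent.S59.H127.LinAlg2

/-!
# Row S58 (helper94): comparison of a `lam`-adic representation with the Tate module of `W`

`compare_h94`: let `ρ'` be a `GaloisRepAdic` over a complete DVR `𝒪` of residue characteristic
`lam` whose Frobenius characteristic polynomials outside a finite set `S` (containing `lam` and
the bad primes of the semistable model `W`) are `X² - a_ℓ(W) X + ℓ`.  Then
* at every good prime `q ≠ lam` (possibly in `S`): if `charpoly ρ'(Frob_q) = X² - s X + q` then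
  `s = a_q(W)`;
* `ρ'` is unipotent on inertia at every prime `q ≠ lam`.
-/

set_option autoImplicit false

namespace Fermat.Agent.S58.H94

open Polynomial Fermat.Agent.S30.H990 Fermat.Agent.S55.H414

section LinAlg

variable {R : Type*} [CommRing R] {V : Type*} [AddCommGroup V] [Module R V]

/-- Cayley–Hamilton for a quadratic characteristic polynomial. -/
theorem rel_of_charpoly [Module.Free R V] [Module.Finite R V] (f : Module.End R V) (s b : R)
    (h : LinearMap.charpoly f = X ^ 2 - C s * X + C b) :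
    f * f - s • f + b • (1 : Module.End R V) = 0 := by
  have := LinearMap.aeval_self_charpoly f
  rw [h] at this
  simp only [map_add, map_sub, map_mul, aeval_X, aeval_C, Algebra.algebraMap_eq_smul_one,
    smul_mul_assoc, one_mul, pow_two] at this
  exact this

/-- Two quadratic relations with the same constant term for an invertible endomorphism of a
free module of rank two over a domain have the same linear term. -/
theorem eq_of_two_rel [IsDomain R] [Module.Free R V] [Module.Finite R V]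
    (h2 : Module.finrank R V = 2) (f : Module.End R V) (hf : IsUnit f) (a a' b : R)
    (h : f * f - a • f + b • (1 : Module.End R V) = 0)
    (h' : f * f - a' • f + b • (1 : Module.End R V) = 0) : a = a' := by
  have h1 : (a' - a) • f = 0 := by
    have : (a' - a) • f = (f * f - a • f + b • (1 : Module.End R V))
        - (f * f - a' • f + b • (1 : Module.End R V)) := by
      rw [sub_smul]; abel
    rw [this, h, h', sub_zero]
  obtain ⟨u, rfl⟩ := hf
  have h3 : (a' - a) • (1 : Module.End R V) = 0 := by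
    have := congrArg (fun g : Module.End R V => g * ((u⁻¹ : (Module.End R V)ˣ) : Module.End R V)) h1
    simpa [smul_mul_assoc] using this
  let e := Module.finBasisOfFinrankEq R V h2
  have h4 : (a' - a) • e 0 = 0 := by
    have := congrArg (fun g : Module.End R V => g (e 0)) h3
    simpa using this
  have h5 := congrArg (fun v => e.repr v 0) h4
  simp only [map_smul, Finsupp.smul_apply, Module.Basis.repr_self, Finsupp.single_eq_same,
    smul_eq_mul, mul_one, map_zero, Finsupp.zero_apply] at h5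
  exact (sub_eq_zero.mp h5).symm

end LinAlg

section BaseChange

variable {A : Type} [CommRing A] [IsLocalRing A] {B : Type} [CommRing B] [IsLocalRing B]

/-- A quadratic relation passes to the base change (tensor product form). -/
theorem rel_baseChange_h94 {A' B' : Type*} [CommRing A'] [CommRing B'] [Algebra A' B']
    {V : Type*} [AddCommGroup V] [Module A' V] (f : Module.End A' V) (a b : A')
    (h : f * f - a • f + b • (1 : Module.End A' V) = 0) :
    f.baseChange B' * f.baseChange B' - algebraMap A' B' a • f.baseChange B'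
      + algebraMap A' B' b • (1 : Module.End B' (TensorProduct A' B' V)) = 0 := by
  apply LinearMap.ext
  intro w
  simp only [LinearMap.add_apply, LinearMap.sub_apply, Module.End.mul_apply,
    LinearMap.smul_apply, Module.End.one_apply, LinearMap.zero_apply]
  induction w using TensorProduct.induction_on with
  | zero => simp
  | tmul c v =>
    have e := congrArg (fun g : Module.End A' V => g v) h
    simp only [LinearMap.add_apply, LinearMap.sub_apply, Module.End.mul_apply,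
      LinearMap.smul_apply, Module.End.one_apply, LinearMap.zero_apply] at e
    have ha : algebraMap A' B' a • (c ⊗ₜ[A'] (f v) : TensorProduct A' B' V)
        = c ⊗ₜ[A'] (a • f v) := by
      rw [TensorProduct.tmul_smul, TensorProduct.smul_tmul', TensorProduct.smul_tmul',
        Algebra.smul_def, Algebra.smul_def, Algebra.algebraMap_self, RingHom.id_apply]
    have hb : algebraMap A' B' b • (c ⊗ₜ[A'] v : TensorProduct A' B' V) = c ⊗ₜ[A'] (b • v) := by
      rw [TensorProduct.tmul_smul, TensorProduct.smul_tmul', TensorProduct.smul_tmul',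
        Algebra.smul_def, Algebra.smul_def, Algebra.algebraMap_self, RingHom.id_apply]
    rw [LinearMap.baseChange_tmul, LinearMap.baseChange_tmul, ha, hb, ← TensorProduct.tmul_sub,
      ← TensorProduct.tmul_add, e, TensorProduct.tmul_zero]
  | add x y hx hy =>
    have : f.baseChange B' (f.baseChange B' (x + y))
        - algebraMap A' B' a • f.baseChange B' (x + y) + algebraMap A' B' b • (x + y)
        = (f.baseChange B' (f.baseChange B' x) - algebraMap A' B' a • f.baseChange B' x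
            + algebraMap A' B' b • x)
          + (f.baseChange B' (f.baseChange B' y) - algebraMap A' B' a • f.baseChange B' y
            + algebraMap A' B' b • y) := by
      simp only [map_add, smul_add]
      abel
    rw [this, hx, hy, add_zero]

/-- A quadratic relation passes to the base change. -/
theorem rel_baseChangeAlong (φ : A →+* B) (hφ : IsLocalHom φ) (ρ : GaloisRepAdic A)
    (σ : AlgebraicClosure ℚ ≃ₐ[ℚ] AlgebraicClosure ℚ) (a b : A)
    (h : ρ.ρ σ * ρ.ρ σ - a • ρ.ρ σ + b • (1 : Module.End A ρ.V) = 0) :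
    (ρ.baseChangeAlong φ hφ).ρ σ * (ρ.baseChangeAlong φ hφ).ρ σ
      - φ a • (ρ.baseChangeAlong φ hφ).ρ σ
      + φ b • (1 : Module.End B (ρ.baseChangeAlong φ hφ).V) = 0 := by
  let _ : Algebra A B := φ.toAlgebra
  exact rel_baseChange_h94 (B' := B) (ρ.ρ σ) a b h

theorem isUnit_rho (ρ : GaloisRepAdic A) (σ : AlgebraicClosure ℚ ≃ₐ[ℚ] AlgebraicClosure ℚ) :
    IsUnit (ρ.ρ σ) :=
  (Group.isUnit σ).map ρ.ρ

end BaseChange

section Main

variable {𝒪 : Type} [CommRing 𝒪] [IsDomain 𝒪] [IsDiscreteValuationRing 𝒪]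
  [IsAdicComplete (IsLocalRing.maximalIdeal 𝒪) 𝒪] [Finite (IsLocalRing.ResidueField 𝒪)]

omit [IsAdicComplete (IsLocalRing.maximalIdeal 𝒪) 𝒪] [Finite (IsLocalRing.ResidueField 𝒪)] in
/-- A ring homomorphism `ℤ_[lam] → 𝒪` is local as soon as `lam` is not a unit of `𝒪`. -/
theorem isLocalHom_of_padicInt (lam : ℕ) [Fact lam.Prime]
    (hlam : (lam : 𝒪) ∈ IsLocalRing.maximalIdeal 𝒪) (φ : ℤ_[lam] →+* 𝒪) : IsLocalHom φ := by
  refine ⟨fun x hx => ?_⟩
  by_contra hnu
  have hx' : x ∈ IsLocalRing.maximalIdeal ℤ_[lam] := hnu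
  rw [PadicInt.maximalIdeal_eq_span_p, Ideal.mem_span_singleton'] at hx'
  obtain ⟨y, rfl⟩ := hx'
  have : φ (y * (lam : ℤ_[lam])) ∈ IsLocalRing.maximalIdeal 𝒪 := by
    rw [map_mul, map_natCast]
    exact Ideal.mul_mem_left _ _ hlam
  exact this hx

/-- **The comparison lemma.** -/
theorem compare_h94 (W : WeierstrassCurve ℤ) (hΔ : W.Δ ≠ 0) (hss : W.IsSemistableModel)
    (lam : ℕ) [Fact lam.Prime] (hlam : (lam : 𝒪) ∈ IsLocalRing.maximalIdeal 𝒪)
    (S : Finset ℕ) (hlamS : lam ∈ S) (hbadS : ∀ ℓ : ℕ, ℓ.Prime → (ℓ : ℤ) ∣ W.Δ → ℓ ∈ S)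
    (ρ' : GaloisRepAdic 𝒪)
    (hρ' : ∀ ℓ : ℕ, ℓ.Prime → ℓ ∉ S →
      ∀ A : ValuationSubring (AlgebraicClosure ℚ), A.LiesOverPrime ℓ →
        ∀ σ : AlgebraicClosure ℚ ≃ₐ[ℚ] AlgebraicClosure ℚ, A.IsFrobeniusAt σ ℓ →
          LinearMap.charpoly (ρ'.ρ σ) =
            X ^ 2 - C (((W.apOfModel ℓ : ℤ) : 𝒪)) * X + C ((ℓ : 𝒪))) :
    (∀ q : ℕ, q.Prime → q ≠ lam → W.IsGoodPrimeFor q →
      ∀ A : ValuationSubring (AlgebraicClosure ℚ), A.LiesOverPrime q →
        ∀ σ : AlgebraicClosure ℚ ≃ₐ[ℚ] AlgebraicClosure ℚ, A.IsFrobeniusAt σ q →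
          ∀ s : 𝒪, LinearMap.charpoly (ρ'.ρ σ) = X ^ 2 - C s * X + C ((q : 𝒪)) →
            s = ((W.apOfModel q : ℤ) : 𝒪)) ∧
    (∀ q : ℕ, q.Prime → q ≠ lam → ρ'.IsUnipotentOnInertiaAt q) := by
  obtain ⟨φ⟩ := exists_padicInt_ringHom lam 𝒪 hlam
  have hφ : IsLocalHom φ := isLocalHom_of_padicInt lam hlam φ
  obtain ⟨T, hTfrob, hTinert⟩ := exists_tate_h94 W hΔ hss lam
  set Tb : GaloisRepAdic 𝒪 := T.baseChangeAlong φ hφ with hTb
  obtain ⟨d, hdfrob, hdinert, -, hdcont⟩ := exists_cyclo lam 𝒪 hlam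
  -- the Frobenius relation on `Tb` at all good primes `≠ lam`
  have hTbfrob : ∀ ℓ : ℕ, ℓ.Prime → W.IsGoodPrimeFor ℓ → ℓ ≠ lam →
      ∀ A : ValuationSubring (AlgebraicClosure ℚ), A.LiesOverPrime ℓ →
        ∀ σ : AlgebraicClosure ℚ ≃ₐ[ℚ] AlgebraicClosure ℚ, A.IsFrobeniusAt σ ℓ →
          Tb.ρ σ * Tb.ρ σ - (((W.apOfModel ℓ : ℤ) : 𝒪)) • Tb.ρ σ
            + ((ℓ : 𝒪)) • (1 : Module.End 𝒪 Tb.V) = 0 := by
    intro ℓ hℓ hgood hℓlam A hA σ hσ
    have := rel_baseChangeAlong φ hφ T σ _ _ (hTfrob ℓ hℓ hgood hℓlam A hA σ hσ)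
    rw [map_intCast, map_natCast] at this
    exact this
  have hTbinert : ∀ q : ℕ, q.Prime → q ≠ lam →
      ∀ P : ValuationSubring (AlgebraicClosure ℚ), P.LiesOverPrime q →
        ∀ σ ∈ P.inertiaSubgroupIn ℚ,
          Tb.ρ σ * Tb.ρ σ - (2 : 𝒪) • Tb.ρ σ + (1 : 𝒪) • (1 : Module.End 𝒪 Tb.V) = 0 := by
    intro q hq hqlam P hP σ hσ
    have h := hTinert q hq hqlam P hP σ hσ
    have h' : T.ρ σ * T.ρ σ - (2 : ℤ_[lam]) • T.ρ σ
        + (1 : ℤ_[lam]) • (1 : Module.End ℤ_[lam] T.V) = 0 := by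
      rw [one_smul]; exact h
    have := rel_baseChangeAlong φ hφ T σ _ _ h'
    rw [map_ofNat, map_one] at this
    exact this
  -- the common relation
  have hgoodS : ∀ ℓ : ℕ, ℓ.Prime → ℓ ∉ S → W.IsGoodPrimeFor ℓ ∧ ℓ ≠ lam :=
    fun ℓ hℓ hℓS => ⟨fun hd => hℓS (hbadS ℓ hℓ hd), fun h => hℓS (h ▸ hlamS)⟩
  have hcommon : ∀ g : GQ, ∃ a : 𝒪, Fermat.Agent.S30.H990.Rel ρ'.ρ d g a ∧
      Fermat.Agent.S30.H990.Rel Tb.ρ d g a :=
    exists_common_rel lam S hlamS ρ' Tb (fun ℓ => ((W.apOfModel ℓ : ℤ) : 𝒪))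
      (fun ℓ hℓ hℓS A hA σ hσ => rel_of_charpoly _ _ _ (hρ' ℓ hℓ hℓS A hA σ hσ))
      (fun ℓ hℓ hℓS A hA σ hσ =>
        hTbfrob ℓ hℓ (hgoodS ℓ hℓ hℓS).1 (hgoodS ℓ hℓ hℓS).2 A hA σ hσ)
      d hdfrob hdcont
  refine ⟨?_, ?_⟩
  · intro q hq hqlam hgood A hA σ hσ s hs
    obtain ⟨a, ha₁, ha₂⟩ := hcommon σ
    have hdσ : ((d σ : 𝒪ˣ) : 𝒪) = (q : 𝒪) := hdfrob q hq hqlam A hA σ hσ
    unfold Fermat.Agent.S30.H990.Rel at ha₁ ha₂
    rw [hdσ] at ha₁ ha₂
    have e1 : a = s := eq_of_two_rel ρ'.finrank_eq (ρ'.ρ σ) (isUnit_rho ρ' σ) a s (q : 𝒪) ha₁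
      (rel_of_charpoly _ _ _ hs)
    have e2 : a = ((W.apOfModel q : ℤ) : 𝒪) :=
      eq_of_two_rel Tb.finrank_eq (Tb.ρ σ) (isUnit_rho Tb σ) a _ (q : 𝒪) ha₂
        (hTbfrob q hq hgood hqlam A hA σ hσ)
    rw [← e1, e2]
  · intro q hq hqlam P hP σ hσ
    obtain ⟨a, ha₁, ha₂⟩ := hcommon σ
    have hdσ : d σ = 1 := hdinert q hq hqlam P hP σ hσ
    unfold Fermat.Agent.S30.H990.Rel at ha₁ ha₂
    rw [hdσ, Units.val_one] at ha₁ ha₂
    have e2 : a = 2 := eq_of_two_rel Tb.finrank_eq (Tb.ρ σ) (isUnit_rho Tb σ) a 2 1 ha₂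
      (hTbinert q hq hqlam P hP σ hσ)
    rw [e2, one_smul] at ha₁
    exact Fermat.Agent.S59.H127.charpoly_eq_of_sub_one_sq ρ'.finrank_eq (ρ'.ρ σ) ha₁

end Main

end Fermat.Agent.S58.H94
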