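import Fermat.Agent.S58.H94.Top
import Fermat.Agent.S58.H273.Res
import Fermat.Agent.S58.H292.CoeffHensel

/-!
# Row S58 (architect helper94): S58 from the frozen statements S35 and S36 alone

`s58_of_S35_S36 : S35Statement → S36Statement → S58Statement`

All leaves are closed on main: RES (`S58.H273.residual`, helper273), COEFF-HENSEL
(`S58.H292.exists_prime_ringHom_adjoin`, helper292), COUNT (`S58.H285.pointCount`, helper285).
The final file `Fermat/Agent/S58.lean` is
`s58_of_S35_S36 (@Fermat.Agent.S35.result) (@Fermat.Agent.S36.result) W hss N p ...`.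
-/

set_option autoImplicit false

namespace Fermat.Agent.S58.H94

open Fermat.Agent.S58

/-- Leaf COEFF-HENSEL, closed (helper292, from `S48.H368.exists_padicInt_hom`). -/
theorem coeffHensel_h94 : CoeffHenselStatement := by
  intro α hα B
  obtain ⟨lam, hlam, hB, ι, -⟩ := Fermat.Agent.S58.H292.exists_prime_ringHom_adjoin α hα B
  exact ⟨lam, hlam, hB, ⟨ι⟩⟩

/-- **S58 from the frozen statements S35 and S36.** -/
theorem s58_of_S35_S36 (h35 : S35Statement) (h36 : S36Statement) : S58Statement :=
  s58_of h35 h36 Fermat.Agent.S58.H273.residual coeffHensel_h94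

end Fermat.Agent.S58.H94
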