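import Fermat.Agent.S58.H94.Final
import Fermat.Agent.S35.H991.Ready
import Fermat.Agent.S35.H991.Final
import Fermat.Agent.S36.H683.Top
import Fermat.Agent.S36.Eng.Two

/-!
# S58 from the PLAIN chain tops of S35 and S36 (helper94)

Per lead ruling #9784 (4): consumers import the plain chain tops, never `S35.lean` / `S36.lean`.

* `s35Statement_h94 : S58.S35Statement` — from `S35.H991.result_of_qnf S35.H991.qNewFrob_final`;
* `s36Statement_of_newPart_h94 : S36.H36.NewPartInertiaStatement → S58.S36Statement`;
* `s58_of_newPart_h94 : S36.H36.NewPartInertiaStatement → S58.S58Statement`;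
* `s58_of_engine_h94 : S36.Eng.Alg3Statement → S36.Eng.Model3Statement → S58.S58Statement`.
-/

set_option autoImplicit false

namespace Fermat.Agent.S58.H94

/-- Frozen S35, in the gate shape of `S58/Spec.lean`, from the plain S35 chain. -/
theorem s35Statement_h94 : Fermat.Agent.S58.S35Statement :=
  fun {M} _ {g} hg lam _ S O' _ _ _ _ _ _ hlamO' chig hchig iota hlamS hMS =>
    Fermat.Agent.S35.H991.result_of_qnf Fermat.Agent.S35.H991.qNewFrob_final
      hg lam S O' hlamO' chig hchig iota hlamS hMS

/-- Frozen S36, in the gate shape of `S58/Spec.lean`, from the engine input (N). -/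
theorem s36Statement_of_newPart_h94 (hN : Fermat.Agent.S36.H36.NewPartInertiaStatement) :
    Fermat.Agent.S58.S36Statement :=
  fun {M} _ {g} hg lam _ S O' _ _ _ _ _ _ hlamO' _hlam2 chig hchig iota hlamS hMS _hres =>
    Fermat.Agent.S36.H683.result_of_newPart hN
      hg lam S O' hlamO' chig hchig iota hlamS hMS

/-- **S58 from the S36 engine input (N)** alone. -/
theorem s58_of_newPart_h94 (hN : Fermat.Agent.S36.H36.NewPartInertiaStatement) :
    Fermat.Agent.S58.S58Statement :=
  s58_of_S35_S36 s35Statement_h94 (s36Statement_of_newPart_h94 hN)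

/-- **S58 from the two S36 engine statements** (ALG3 + MOD3). -/
theorem s58_of_engine_h94 (hALG : Fermat.Agent.S36.Eng.Alg3Statement)
    (hMOD : Fermat.Agent.S36.Eng.Model3Statement) : Fermat.Agent.S58.S58Statement :=
  s58_of_newPart_h94 (Fermat.Agent.S36.Eng.newPartInertia_of_alg3_model3 hALG hMOD)

end Fermat.Agent.S58.H94
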