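import Fermat.Agent.S58.H94.FromEngine
import Fermat.Agent.S36.Alg3.Final

/-!
# S58 from MOD3 alone (helper94)

ALG3 is closed on main (`S36.Alg3.alg3`, sub-architect helper586), so S58 needs only
`S36.Eng.Model3Statement`:

    s58_of_model3_h94 : S36.Eng.Model3Statement → S58.S58Statement
-/

set_option autoImplicit false

namespace Fermat.Agent.S58.H94

/-- **S58 from MOD3** (`Eng.Model3Statement`) alone. -/
theorem s58_of_model3_h94 (hMOD : Fermat.Agent.S36.Eng.Model3Statement) :
    Fermat.Agent.S58.S58Statement :=
  s58_of_engine_h94 Fermat.Agent.S36.Alg3.alg3 hMOD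

end Fermat.Agent.S58.H94
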