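import Fermat.Agent.S58.H94.FromModel3
import Fermat.Agent.S36.Mod3.H928.OfReg

/-!
# S58 from the last open MOD3 leaf (helper94)

All MOD3 leaves except `Mod3.LeafReg` are plugged by the MOD3 integrator helper928
(`S36.Mod3.H928.model3_of_reg`), ALG3 is closed (`S36.Alg3.alg3`), so

    s58_of_reg_h94 : S36.Mod3.LeafReg → S58.S58Statement
-/

set_option autoImplicit false

namespace Fermat.Agent.S58.H94

/-- **S58 from `Mod3.LeafReg`** alone. -/
theorem s58_of_reg_h94 (hReg : Fermat.Agent.S36.Mod3.LeafReg) :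
    Fermat.Agent.S58.S58Statement :=
  s58_of_model3_h94 (Fermat.Agent.S36.Mod3.H928.model3_of_reg hReg)

end Fermat.Agent.S58.H94
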