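import Mathlib

/-!
# Row S58 (architect helper94): the one extra leaf of the relation-based glue

`Fermat.Agent.S58.H94.s58_of` (file `S58/H94/Top.lean`) proves the frozen S58 from the Props of
`Fermat/Agent/S58/Spec.lean` (helper41, on main)

* `S35Statement`, `S36Statement` (frozen statements, as hypotheses),
* `ResidualStatement` (leaf RES),
* `PointCountStatement` (leaf COUNT, proved on main: `S58.H285.pointCount`),

and from the leaf below.  The leaves TATE / COEFF / CHEB of `S58/Spec.lean` are NOT used.

* `CoeffHenselStatement` (Mathlib only): the ring generated by an algebraic integer maps to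
  `ℤ_[lam]` for some prime `lam` outside any given finite set (a nonconstant integer polynomial
  has roots modulo infinitely many primes; Hensel at a simple root of the minimal polynomial).
-/

set_option autoImplicit false

namespace Fermat.Agent.S58.H94

/-- **Leaf COEFF-HENSEL** (Mathlib only). -/
def CoeffHenselStatement : Prop :=
  ∀ (α : ℂ), IsIntegral ℤ α → ∀ B : Finset ℕ,
    ∃ (lam : ℕ) (_ : Fact lam.Prime), lam ∉ B ∧
      Nonempty (Algebra.adjoin ℤ ({α} : Set ℂ) →+* ℤ_[lam])

end Fermat.Agent.S58.H94
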