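import Fermat.Agent.S58.Glue
import Fermat.Agent.S58.H94.Spec
import Fermat.Agent.S58.H94.Compare
import Fermat.Agent.S58.H94.EigChar
import Fermat.Agent.S58.H285.PointCount
import Fermat.Agent.Lib.Newform.Main
import Fermat.Agent.S54.FrobExists

/-!
# Row S58 (architect helper94): the relation-based top glue

`s58_of : S35Statement → S36Statement → ResidualStatement → CoeffHenselStatement → S58Statement`

(Props of `S58/Spec.lean` and `S58/H94/Spec.lean`).  The coefficient ring is always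
`O' = ℤ_[lam]`; the Tate module of `W` is only used through its quadratic relations
(`S58/H94/Compare.lean`), so no determinant, no irreducibility at the auxiliary prime and no
general complete DVR are needed.
-/

set_option autoImplicit false

open Polynomial

namespace Fermat.Agent.S58.H94

open Fermat.Agent.S58 CuspForm CongruenceSubgroup ModularFormClass

/-- The residue field of `ℤ_[p]` is finite. -/
theorem finite_residueField_padicInt_h94 (p : ℕ) [Fact p.Prime] :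
    Finite (IsLocalRing.ResidueField ℤ_[p]) := by
  have : Finite (ZMod p) := inferInstance
  exact Finite.of_equiv (ZMod p) (PadicInt.residueField (p := p)).symm.toEquiv

/-- `p` lies in the maximal ideal of `ℤ_[p]`. -/
theorem natCast_mem_maximalIdeal_padicInt_h94 (p : ℕ) [Fact p.Prime] :
    (p : ℤ_[p]) ∈ IsLocalRing.maximalIdeal ℤ_[p] := by
  rw [PadicInt.maximalIdeal_eq_span_p]
  exact Ideal.subset_span rfl

section Iota

/-- A ring homomorphism on a subalgebra of `ℂ` restricts to every subring contained in it. -/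
noncomputable def iotaOf {R' : Type*} [Semiring R'] (A : Subalgebra ℤ ℂ) (φ : A →+* R')
    (Rg : Subring ℂ) (hle : ∀ x ∈ Rg, x ∈ A) : Rg →+* R' where
  toFun x := φ ⟨x.1, hle x.1 x.2⟩
  map_one' := map_one φ
  map_mul' x y := map_mul φ ⟨x.1, hle x.1 x.2⟩ ⟨y.1, hle y.1 y.2⟩
  map_zero' := map_zero φ
  map_add' x y := map_add φ ⟨x.1, hle x.1 x.2⟩ ⟨y.1, hle y.1 y.2⟩

theorem iotaOf_injective {R' : Type*} [Semiring R'] (A : Subalgebra ℤ ℂ) (φ : A →+* R')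
    (hφ : Function.Injective φ) (Rg : Subring ℂ) (hle : ∀ x ∈ Rg, x ∈ A) :
    Function.Injective (iotaOf A φ Rg hle) := by
  intro x y h
  have h1 : (⟨x.1, hle x.1 x.2⟩ : A) = ⟨y.1, hle y.1 y.2⟩ := hφ h
  exact Subtype.ext (congrArg (fun z : A => (z : ℂ)) h1)

/-- The integers as a subalgebra of `ℂ` map to every ring. -/
noncomputable def phiInt (R' : Type*) [Ring R'] : (⊥ : Subalgebra ℤ ℂ) →+* R' :=
  (Int.castRingHom R').comp
    (Algebra.botEquivOfInjective (R := ℤ) (A := ℂ) (algebraMap ℤ ℂ).injective_int).toAlgHom.toRingHom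

theorem phiInt_injective (R' : Type*) [Ring R'] [CharZero R'] :
    Function.Injective (phiInt R') := by
  intro x y h
  have h1 : (Algebra.botEquivOfInjective (R := ℤ) (A := ℂ) (algebraMap ℤ ℂ).injective_int) x
      = (Algebra.botEquivOfInjective (R := ℤ) (A := ℂ) (algebraMap ℤ ℂ).injective_int) y :=
    Int.cast_injective (α := R') h
  exact (Algebra.botEquivOfInjective (R := ℤ) (A := ℂ) (algebraMap ℤ ℂ).injective_int).injective h1

theorem intCast_mem_bot_h94 (a : ℤ) : ((a : ℤ) : ℂ) ∈ (⊥ : Subalgebra ℤ ℂ) :=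
  Algebra.mem_bot.mpr ⟨a, by simp⟩

/-- Every ring homomorphism from the ring generated by an algebraic integer to a domain of
characteristic zero is injective. -/
theorem injective_of_adjoin_h94 {α : ℂ} (hα : IsIntegral ℤ α) {R' : Type*} [CommRing R']
    [IsDomain R'] [CharZero R'] (φ : Algebra.adjoin ℤ ({α} : Set ℂ) →+* R') :
    Function.Injective φ := by
  have : Algebra.IsIntegral ℤ (Algebra.adjoin ℤ ({α} : Set ℂ)) :=
    Algebra.IsIntegral.adjoin (fun x hx => by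
      rw [Set.mem_singleton_iff] at hx
      rw [hx]
      exact hα)
  rw [injective_iff_map_eq_zero]
  intro x hx
  have hker : (RingHom.ker φ).comap (algebraMap ℤ (Algebra.adjoin ℤ ({α} : Set ℂ))) = ⊥ := by
    rw [eq_bot_iff]
    intro n hn
    rw [Ideal.mem_comap, RingHom.mem_ker] at hn
    have h1 : (n : R') = 0 := by
      rw [← hn]
      simp
    rw [Ideal.mem_bot]
    exact_mod_cast h1
  have := Ideal.eq_bot_of_comap_eq_bot hker
  have hx' : x ∈ RingHom.ker φ := hx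
  rw [this, Ideal.mem_bot] at hx'
  exact hx'

end Iota

/-- **The package at a prime `lam`, from S35.** -/
theorem package35_h94 (h35 : S35Statement)
    (W : WeierstrassCurve ℤ) (hΔ : W.Δ ≠ 0) (hss : W.IsSemistableModel)
    {N M : ℕ} (hN0 : N ≠ 0) (hMN : M ∣ N) [NeZero M]
    (g : CuspForm (Gamma0 M) 2) (hg : g.IsNewform)
    (hgW : ∀ ℓ : ℕ, ℓ.Prime → ¬ ℓ ∣ N → qCoeff ⇑g ℓ = (W.apOfModel ℓ : ℂ))
    (hbad : ∀ ℓ : ℕ, ℓ.Prime → (ℓ : ℤ) ∣ W.Δ → ℓ ∣ N)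
    (lam : ℕ) [Fact lam.Prime] (S' : Finset ℕ) (hlamS' : lam ∈ S')
    (hMS' : ∀ q : ℕ, q.Prime → q ∣ M → q ∈ S')
    (A : Subalgebra ℤ ℂ) (φ : A →+* ℤ_[lam]) (hφ : Function.Injective φ)
    (hA : ∀ ℓ : ℕ, ℓ.Prime → ¬ ℓ ∣ M → ℓ ∉ (↑S' : Set ℕ) → qCoeff ⇑g ℓ ∈ A) :
    (∀ ℓ : ℕ, ℓ.Prime → W.IsGoodPrimeFor ℓ → ℓ ∉ S' → ¬ ℓ ∣ M →
      qCoeff ⇑g ℓ = (W.apOfModel ℓ : ℂ)) ∧
    (∀ q : ℕ, q.Prime → q ≠ lam → q ∣ M → ¬ q ^ 2 ∣ M → ¬ W.IsGoodPrimeFor q) := by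
  classical
  have := finite_residueField_padicInt_h94 lam
  set chig : heckeAlgebra M 2 (↑S' : Set ℕ) →+* ℂ := chigOf hg.1 (↑S' : Set ℕ) with hchigdef
  have hchig : ∀ (ℓ : ℕ) (hℓ : ℓ.Prime) (hℓM : ¬ ℓ ∣ M) (hℓS : ℓ ∉ (↑S' : Set ℕ)),
      chig (heckeAlgebra.T hℓ hℓM hℓS) = qCoeff ⇑g ℓ :=
    fun ℓ hℓ hℓM hℓS => chigOf_T hg.1 _ hℓ hℓM hℓS
  have hle : ∀ x ∈ chig.range, x ∈ A := by
    intro x hx
    exact chigOf_range_le hg.1 (↑S' : Set ℕ) A.toSubring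
      (fun ℓ hℓ hℓM hℓS => hA ℓ hℓ hℓM hℓS)
      (fun q hq hqM => Finset.mem_coe.mpr (hMS' q hq hqM)) hx
  set iota : chig.range →+* ℤ_[lam] := iotaOf A φ chig.range hle with hiotadef
  have hiota : Function.Injective iota := iotaOf_injective A φ hφ chig.range hle
  obtain ⟨O'', j1, j2, j3, j4, j5, j6, j7, j8, j9, hinj, ρ, hρ, hρst⟩ :=
    h35 hg lam S' ℤ_[lam] (natCast_mem_maximalIdeal_padicInt_h94 lam) chig hchig iota
      hlamS' hMS'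
  have hlamO'' : (lam : O'') ∈ IsLocalRing.maximalIdeal O'' :=
    natCast_mem_maximalIdeal_of_isLocalHom (natCast_mem_maximalIdeal_padicInt_h94 lam)
  -- the comparison set
  have hT : ∀ ℓ : ℕ, ℓ.Prime → ℓ ∉ S' ∪ N.primeFactors → ¬ ℓ ∣ N ∧ ¬ ℓ ∣ M ∧
      ℓ ∉ (↑S' : Set ℕ) := by
    intro ℓ hℓ hℓT
    rw [Finset.mem_union, not_or] at hℓT
    have hℓN : ¬ ℓ ∣ N := fun h => hℓT.2 (Nat.mem_primeFactors.mpr ⟨hℓ, h, hN0⟩)
    exact ⟨hℓN, fun h => hℓN (dvd_trans h hMN), fun h => hℓT.1 (Finset.mem_coe.mp h)⟩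
  obtain ⟨cmpF, -⟩ := compare_h94 W hΔ hss lam hlamO'' (S' ∪ N.primeFactors)
    (Finset.mem_union_left _ hlamS')
    (fun ℓ hℓ hd => Finset.mem_union_right _ (Nat.mem_primeFactors.mpr ⟨hℓ, hbad ℓ hℓ hd, hN0⟩))
    ρ (by
      intro ℓ hℓ hℓT A' hA' σ hσ
      obtain ⟨hℓN, hℓM, hℓS⟩ := hT ℓ hℓ hℓT
      rw [hρ ℓ hℓ hℓM hℓS A' hA' σ hσ,
        iota_eq_intCast chig iota _ (W.apOfModel ℓ) ((hchig ℓ hℓ hℓM hℓS).trans (hgW ℓ hℓ hℓN)),
        map_intCast])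
  refine ⟨?_, ?_⟩
  · intro ℓ hℓ hgood hℓS' hℓM
    have hℓlam : ℓ ≠ lam := fun h => hℓS' (h ▸ hlamS')
    have hℓS : ℓ ∉ (↑S' : Set ℕ) := fun h => hℓS' (Finset.mem_coe.mp h)
    obtain ⟨A', σ, hA', hσ⟩ := Fermat.Agent.S54.exists_frobenius ℓ hℓ
    have h1 := hρ ℓ hℓ hℓM hℓS A' hA' σ hσ
    have h3 := cmpF ℓ hℓ hℓlam hgood A' hA' σ hσ _ h1
    have h4 : (iota.comp chig.rangeRestrict) (heckeAlgebra.T hℓ hℓM hℓS)
        = ((W.apOfModel ℓ : ℤ) : ℤ_[lam]) :=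
      hinj (by rw [h3, map_intCast])
    rw [← hchig ℓ hℓ hℓM hℓS]
    exact eq_intCast_of_iota chig iota hiota _ _ h4
  · intro q hq hqlam hqM hq2 hgood
    obtain ⟨A', σ, hA', hσ⟩ := Fermat.Agent.S54.exists_frobenius q hq
    rcases hρst q hq hqlam hqM hq2 A' hA' σ hσ with h1 | h1
    · have h3 := cmpF q hq hqlam hgood A' hA' σ hσ _ h1
      have h4 : (((q : ℤ) + 1 : ℤ) : O'') = ((W.apOfModel q : ℤ) : O'') := by
        rw [← h3]; push_cast; rfl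
      exact (Fermat.Agent.S58.H285.pointCount W q hq).1 (Int.cast_injective h4).symm
    · rw [quad_plus_eq] at h1
      have h3 := cmpF q hq hqlam hgood A' hA' σ hσ _ h1
      have h4 : ((-((q : ℤ) + 1) : ℤ) : O'') = ((W.apOfModel q : ℤ) : O'') := by
        rw [← h3]; push_cast; rfl
      exact (Fermat.Agent.S58.H285.pointCount W q hq).2 (Int.cast_injective h4).symm

/-- **No prime `q ≠ p` with `q² ∥ M`, from S36.** -/
theorem no_sq_h94 (h36 : S36Statement) (hres : ResidualStatement)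
    (W : WeierstrassCurve ℤ) (hΔ : W.Δ ≠ 0) (hss : W.IsSemistableModel)
    {N M : ℕ} (hN0 : N ≠ 0) (hMN : M ∣ N) [NeZero M]
    (g : CuspForm (Gamma0 M) 2) (hg : g.IsNewform)
    (hgW : ∀ ℓ : ℕ, ℓ.Prime → ¬ ℓ ∣ N → qCoeff ⇑g ℓ = (W.apOfModel ℓ : ℂ))
    (hbad : ∀ ℓ : ℕ, ℓ.Prime → (ℓ : ℤ) ∣ W.Δ → ℓ ∣ N)
    (p : ℕ) [Fact p.Prime] (hp2 : p ≠ 2) (hirr : W.ModRepIsIrreducible p)
    (q : ℕ) (hq : q.Prime) (hqp : q ≠ p) : M.factorization q ≠ 2 := by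
  classical
  intro hfact
  have := finite_residueField_padicInt_h94 p
  have hM0 : M ≠ 0 := NeZero.ne M
  set S' : Finset ℕ := insert p N.primeFactors with hS'
  have hpS' : p ∈ S' := Finset.mem_insert_self _ _
  have hMS' : ∀ q : ℕ, q.Prime → q ∣ M → q ∈ S' := fun q hq hqM =>
    Finset.mem_insert_of_mem (Nat.mem_primeFactors.mpr ⟨hq, dvd_trans hqM hMN, hN0⟩)
  have hT : ∀ ℓ : ℕ, ℓ.Prime → ℓ ∉ S' → ¬ ℓ ∣ N ∧ ¬ ℓ ∣ M ∧ ℓ ∉ (↑S' : Set ℕ) ∧ ℓ ≠ p := by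
    intro ℓ hℓ hℓT
    have h1 : ℓ ≠ p := fun h => hℓT (h ▸ hpS')
    have hℓN : ¬ ℓ ∣ N := fun h =>
      hℓT (Finset.mem_insert_of_mem (Nat.mem_primeFactors.mpr ⟨hℓ, h, hN0⟩))
    exact ⟨hℓN, fun h => hℓN (dvd_trans h hMN), fun h => hℓT (Finset.mem_coe.mp h), h1⟩
  set chig : heckeAlgebra M 2 (↑S' : Set ℕ) →+* ℂ := chigOf hg.1 (↑S' : Set ℕ) with hchigdef
  have hchig : ∀ (ℓ : ℕ) (hℓ : ℓ.Prime) (hℓM : ¬ ℓ ∣ M) (hℓS : ℓ ∉ (↑S' : Set ℕ)),
      chig (heckeAlgebra.T hℓ hℓM hℓS) = qCoeff ⇑g ℓ :=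
    fun ℓ hℓ hℓM hℓS => chigOf_T hg.1 _ hℓ hℓM hℓS
  have hle : ∀ x ∈ chig.range, x ∈ (⊥ : Subalgebra ℤ ℂ) := by
    intro x hx
    refine chigOf_range_le hg.1 (↑S' : Set ℕ) (⊥ : Subalgebra ℤ ℂ).toSubring
      (fun ℓ hℓ hℓM hℓS => ?_)
      (fun q hq hqM => Finset.mem_coe.mpr (hMS' q hq hqM)) hx
    have hℓN : ¬ ℓ ∣ N := (hT ℓ hℓ (fun h => hℓS (Finset.mem_coe.mpr h))).1
    rw [hgW ℓ hℓ hℓN]
    exact intCast_mem_bot_h94 _
  set iota : chig.range →+* ℤ_[p] := iotaOf ⊥ (phiInt ℤ_[p]) chig.range hle with hiotadef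
  obtain ⟨O'', j1, j2, j3, j4, j5, j6, j7, j8, j9, hinj, ρ, hρ, hρnu⟩ :=
    h36 hg p S' ℤ_[p] (natCast_mem_maximalIdeal_padicInt_h94 p) hp2 chig hchig iota
      hpS' hMS' (by
        intro O'' _ _ _ _ _ _ _ _ _ _ ρ hρ
        have hpO'' : (p : O'') ∈ IsLocalRing.maximalIdeal O'' :=
          natCast_mem_maximalIdeal_of_isLocalHom (natCast_mem_maximalIdeal_padicInt_h94 p)
        refine hres p hp2 W hΔ hirr O'' hpO'' ρ S' ?_
        intro ℓ hℓ hℓT A' hA' σ hσ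
        obtain ⟨hℓN, hℓM, hℓS, hℓp⟩ := hT ℓ hℓ hℓT
        rw [hρ ℓ hℓ hℓp hℓM hℓS A' hA' σ hσ,
          iota_eq_intCast chig iota _ (W.apOfModel ℓ)
            ((hchig ℓ hℓ hℓM hℓS).trans (hgW ℓ hℓ hℓN)), map_intCast])
  have hpO'' : (p : O'') ∈ IsLocalRing.maximalIdeal O'' :=
    natCast_mem_maximalIdeal_of_isLocalHom (natCast_mem_maximalIdeal_padicInt_h94 p)
  obtain ⟨-, cmpI⟩ := compare_h94 W hΔ hss p hpO'' S' hpS'
    (fun ℓ hℓ hd => Finset.mem_insert_of_mem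
      (Nat.mem_primeFactors.mpr ⟨hℓ, hbad ℓ hℓ hd, hN0⟩))
    ρ (by
      intro ℓ hℓ hℓT A' hA' σ hσ
      obtain ⟨hℓN, hℓM, hℓS, -⟩ := hT ℓ hℓ hℓT
      rw [hρ ℓ hℓ hℓM hℓS A' hA' σ hσ,
        iota_eq_intCast chig iota _ (W.apOfModel ℓ) ((hchig ℓ hℓ hℓM hℓS).trans (hgW ℓ hℓ hℓN)),
        map_intCast])
  exact hρnu q hq hqp hfact (cmpI q hq hqp)

/-- **S58 from S35, S36, RES and COEFF-HENSEL.** -/
theorem s58_of (h35 : S35Statement) (h36 : S36Statement) (hres : ResidualStatement)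
    (hcoeff : CoeffHenselStatement) : S58Statement := by
  intro W hss N p _ hp2 hirr hp2N hN hbad hN3
  classical
  have hN0 : N ≠ 0 := by
    rintro rfl
    exact hN3 2 Nat.prime_two (dvd_zero _)
  have : NeZero N := ⟨hN0⟩
  have hΔ : W.Δ ≠ 0 := by
    intro h0
    obtain ⟨ℓ, hℓN, hℓ⟩ := Nat.exists_infinite_primes (N + 1)
    have h1 := hbad ℓ hℓ (by rw [h0]; exact dvd_zero _)
    have h2 := Nat.le_of_dvd (Nat.pos_of_ne_zero hN0) h1
    omega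
  obtain ⟨f, hf, hfa⟩ := hN
  obtain ⟨M, hMN, g, hg, hga⟩ := Fermat.Agent.Lib.Newform.descent N f hf
  have hM0 : M ≠ 0 := fun h => hN0 (by rw [h] at hMN; exact zero_dvd_iff.mp hMN)
  have : NeZero M := ⟨hM0⟩
  have hgW : ∀ ℓ : ℕ, ℓ.Prime → ¬ ℓ ∣ N → qCoeff ⇑g ℓ = (W.apOfModel ℓ : ℂ) :=
    fun ℓ hℓ hℓN => (hga ℓ hℓ hℓN).trans (hfa ℓ hℓ (fun hd => hℓN (hbad ℓ hℓ hd)) hℓN)
  -- `M` is squarefree
  have hsq : Squarefree M := by
    refine squarefree_of_forall_not_sq_dvd fun q hq hq2 => ?_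
    by_cases hqp : q = p
    · subst hqp
      exact hp2N (dvd_trans hq2 hMN)
    · exact no_sq_h94 h36 hres W hΔ hss hN0 hMN g hg hgW hbad p hp2 hirr q hq hqp
        (factorization_eq_two_of_sq_dvd hq hM0 hq2 (fun h3 => hN3 q hq (dvd_trans h3 hMN)))
  -- the primes of `M` are bad
  have hMbad : ∀ q : ℕ, q.Prime → q ∣ M → (q : ℤ) ∣ W.Δ := by
    intro q hq hqM
    have hq2 : ¬ q ^ 2 ∣ M := by
      intro h
      have := (Nat.squarefree_iff_prime_squarefree.mp hsq) q hq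
      exact this (by rwa [← pow_two])
    by_contra hgood
    -- an auxiliary prime `lam ≠ q`
    obtain ⟨lam, hlam, hlamq⟩ : ∃ lam : ℕ, lam.Prime ∧ q ≠ lam := by
      by_cases h2 : q = 2
      · exact ⟨3, by norm_num, by omega⟩
      · exact ⟨2, Nat.prime_two, h2⟩
    have : Fact lam.Prime := ⟨hlam⟩
    have hpk := package35_h94 h35 W hΔ hss hN0 hMN g hg hgW hbad lam
      (insert lam N.primeFactors) (Finset.mem_insert_self _ _)
      (fun q hq hqM => Finset.mem_insert_of_mem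
        (Nat.mem_primeFactors.mpr ⟨hq, dvd_trans hqM hMN, hN0⟩))
      ⊥ (phiInt ℤ_[lam]) (phiInt_injective ℤ_[lam])
      (by
        intro ℓ hℓ _ hℓS
        have hℓN : ¬ ℓ ∣ N := fun h => hℓS (Finset.mem_coe.mpr
          (Finset.mem_insert_of_mem (Nat.mem_primeFactors.mpr ⟨hℓ, h, hN0⟩)))
        rw [hgW ℓ hℓ hℓN]
        exact intCast_mem_bot_h94 _)
    exact hpk.2 q hq hlamq hqM hq2 hgood
  have hMD : M ∣ W.conductorLevel :=
    dvd_of_squarefree_of_prime_dvd hsq fun q hq hqM =>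
      (W.prime_dvd_conductorLevel_iff hΔ hq).mpr (hMbad q hq hqM)
  obtain ⟨g', hg', hg'a⟩ := Fermat.Agent.Lib.Newform.stab M W.conductorLevel hMD g hg.1
  refine ⟨g', hg', fun ℓ hℓ hgood hℓD => ?_⟩
  have hℓM : ¬ ℓ ∣ M := fun h => hℓD (dvd_trans h hMD)
  rw [hg'a ℓ hℓ hℓD]
  by_cases hℓN : ℓ ∣ N
  · -- the coefficient ring `ℤ[a_ℓ(g)]` and an auxiliary prime `lam ≠ ℓ`
    obtain ⟨lam, hlam, hlamℓ, ⟨φ⟩⟩ :=
      hcoeff (qCoeff ⇑g ℓ) (isIntegral_qCoeff_h94 hg.1 hℓ hℓM) {ℓ}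
    have : Fact lam.Prime := hlam
    have hlamℓ' : lam ≠ ℓ := fun h => hlamℓ (Finset.mem_singleton.mpr h)
    have hpk := package35_h94 h35 W hΔ hss hN0 hMN g hg hgW hbad lam
      ((insert lam N.primeFactors).erase ℓ)
      (Finset.mem_erase.mpr ⟨hlamℓ', Finset.mem_insert_self _ _⟩)
      (fun q hq hqM => Finset.mem_erase.mpr ⟨fun h => hℓM (h ▸ hqM),
        Finset.mem_insert_of_mem (Nat.mem_primeFactors.mpr ⟨hq, dvd_trans hqM hMN, hN0⟩)⟩)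
      (Algebra.adjoin ℤ ({qCoeff ⇑g ℓ} : Set ℂ)) φ
      (injective_of_adjoin_h94 (isIntegral_qCoeff_h94 hg.1 hℓ hℓM) φ)
      (by
        intro ℓ' hℓ' _ hℓ'S
        by_cases h : ℓ' = ℓ
        · rw [h]
          exact Algebra.subset_adjoin (Set.mem_singleton _)
        · have hℓ'N : ¬ ℓ' ∣ N := fun hd => hℓ'S (Finset.mem_coe.mpr
            (Finset.mem_erase.mpr ⟨h, Finset.mem_insert_of_mem
              (Nat.mem_primeFactors.mpr ⟨hℓ', hd, hN0⟩)⟩))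
          rw [hgW ℓ' hℓ' hℓ'N]
          exact Subalgebra.intCast_mem _ _)
    exact hpk.1 ℓ hℓ hgood (Finset.notMem_erase _ _) hℓM
  · exact hgW ℓ hℓ hℓN

end Fermat.Agent.S58.H94
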